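/-
S26, package P7 (D0UB): abstract interface.  FROZEN (sub-lead helper436).

A "system of local rings in a field": a topological space `P` of points and, for every point `x`,
a `K`-subalgebra `O x` of a field `F` (the local ring of `x` inside the function field).
Everything in P7 is proved for such a system under the hypotheses H1..H6 of
`notes/S26/P7_BOARD.md`; the bridge to schemes is a separate leaf.
-/
import Mathlib

set_option autoImplicit false

namespace Fermat.Agent.S26.D0UB

variable {K F : Type*} [Field K] [Field F] [Algebra K F] {P : Type*}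

/-- `b` generates the denominator ideal `(O : f) = {y ∈ O | y * f ∈ O}` of `f` in `O`. -/
def IsDenom (O : Subalgebra K F) (f b : F) : Prop :=
  b ≠ 0 ∧ b ∈ O ∧ ∀ y ∈ O, (y * f ∈ O ↔ ∃ z ∈ O, y = b * z)

/-- (H1) every element of `F` has a denominator in every local ring. -/
def HasDenoms (O : P → Subalgebra K F) : Prop :=
  ∀ (x : P) (f : F), ∃ b : F, IsDenom (O x) f b

/-- (H2) noetherian affine charts: near every point the local rings are the localisations of one
noetherian subalgebra `R`, and the loci where an element of `R` is invertible are open. -/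
def HasCharts [TopologicalSpace P] (O : P → Subalgebra K F) : Prop :=
  ∀ x : P, ∃ (V : Set P) (R : Subalgebra K F), IsOpen V ∧ x ∈ V ∧ IsNoetherianRing R ∧
    (∀ x' ∈ V, R ≤ O x' ∧
      ∀ y ∈ O x', ∃ a ∈ R, ∃ s ∈ R, s ≠ 0 ∧ s⁻¹ ∈ O x' ∧ y = a * s⁻¹) ∧
    (∀ s ∈ R, IsOpen {x' | x' ∈ V ∧ s⁻¹ ∈ O x'})

/-- (H4) every valuation ring of `F` containing `K` contains one of the local rings
(existence of centres; properness). -/
def HasCenters (O : P → Subalgebra K F) : Prop :=
  ∀ Ov : ValuationSubring F, (∀ c : K, algebraMap K F c ∈ Ov) → ∃ x : P, ∀ y ∈ O x, y ∈ Ov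

/-- Local equations `e x` of an effective Cartier divisor. -/
structure IsEffCartier [TopologicalSpace P] (O : P → Subalgebra K F) (e : P → F) : Prop where
  ne_zero : ∀ x, e x ≠ 0
  mem : ∀ x, e x ∈ O x
  coh : ∀ x, ∃ V : Set P, IsOpen V ∧ x ∈ V ∧ ∀ x' ∈ V, e x / e x' ∈ O x' ∧ e x' / e x ∈ O x'

/-- The Riemann–Roch space `L(k D)` of the divisor with local equations `e`. -/
def Lspace (O : P → Subalgebra K F) (e : P → F) (k : ℕ) : Submodule K F where
  carrier := {f | ∀ x, f * e x ^ k ∈ O x}
  add_mem' := by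
    intro a b ha hb x
    rw [add_mul]
    exact (O x).add_mem (ha x) (hb x)
  zero_mem' := by
    intro x
    rw [zero_mul]
    exact (O x).zero_mem
  smul_mem' := by
    intro c f hf x
    rw [smul_mul_assoc]
    exact (O x).smul_mem (hf x) c

theorem mem_Lspace (O : P → Subalgebra K F) (e : P → F) (k : ℕ) (f : F) :
    f ∈ Lspace O e k ↔ ∀ x, f * e x ^ k ∈ O x := Iff.rfl

/-- Property (BA) of the route: every element of `F` is a quotient of two elements of
some `L(k D)`. -/
def HasBA (O : P → Subalgebra K F) (e : P → F) : Prop :=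
  ∀ u : F, ∃ (k : ℕ) (s1 s2 : F), s1 ∈ Lspace O e k ∧ s2 ∈ Lspace O e k ∧ s2 ≠ 0 ∧ u = s1 / s2

/-- The valuative bound (geometric input of UBALG, package P1) for the spaces `L(k D)`. -/
def HasValBound (O : P → Subalgebra K F) (e : P → F) : Prop :=
  ∃ (r : ℕ) (h : Fin r → F), (∀ j, h j ≠ 0) ∧
    ∀ Ov : ValuationSubring F, (∀ c : K, algebraMap K F c ∈ Ov) →
      ∃ j, h j ∈ Ov ∧ ∀ (k : ℕ), ∀ f ∈ Lspace O e k, f * h j ^ k ∈ Ov

end Fermat.Agent.S26.D0UB
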