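/-
S26 P7 (D0UB), leaf L3: algebra of effective Cartier divisors and of the spaces `L(k D)`.
-/
import Fermat.Agent.S26.D0UB.Basic

set_option autoImplicit false

namespace Fermat.Agent.S26.D0UB

variable {K F : Type*} [Field K] [Field F] [Algebra K F] {P : Type*}

theorem IsEffCartier.mul [TopologicalSpace P] {O : P → Subalgebra K F} {e1 e2 : P → F}
    (h1 : IsEffCartier O e1) (h2 : IsEffCartier O e2) :
    IsEffCartier O (fun x => e1 x * e2 x) := by
  refine ⟨fun x => mul_ne_zero (h1.ne_zero x) (h2.ne_zero x),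
    fun x => (O x).mul_mem (h1.mem x) (h2.mem x), fun x => ?_⟩
  obtain ⟨V1, hV1, hx1, hc1⟩ := h1.coh x
  obtain ⟨V2, hV2, hx2, hc2⟩ := h2.coh x
  refine ⟨V1 ∩ V2, hV1.inter hV2, ⟨hx1, hx2⟩, fun x' hx' => ?_⟩
  obtain ⟨a1, b1⟩ := hc1 x' hx'.1
  obtain ⟨a2, b2⟩ := hc2 x' hx'.2
  constructor
  · have : e1 x * e2 x / (e1 x' * e2 x') = (e1 x / e1 x') * (e2 x / e2 x') := by
      rw [mul_div_mul_comm]
    show e1 x * e2 x / (e1 x' * e2 x') ∈ O x'
    rw [this]
    exact (O x').mul_mem a1 a2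
  · have : e1 x' * e2 x' / (e1 x * e2 x) = (e1 x' / e1 x) * (e2 x' / e2 x) := by
      rw [mul_div_mul_comm]
    show e1 x' * e2 x' / (e1 x * e2 x) ∈ O x'
    rw [this]
    exact (O x').mul_mem b1 b2

theorem cartAlg_one [TopologicalSpace P] (O : P → Subalgebra K F) :
    IsEffCartier O (fun _ => (1 : F)) := by
  refine ⟨fun _ => one_ne_zero, fun x => (O x).one_mem, fun x => ?_⟩
  refine ⟨Set.univ, isOpen_univ, Set.mem_univ x, fun x' _ => ?_⟩
  simp only [div_one]
  exact ⟨(O x').one_mem, (O x').one_mem⟩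

theorem IsEffCartier.prod [TopologicalSpace P] {O : P → Subalgebra K F} {ι : Type*}
    (s : Finset ι) (e : ι → P → F) (h : ∀ i ∈ s, IsEffCartier O (e i)) :
    IsEffCartier O (fun x => ∏ i ∈ s, e i x) := by
  classical
  induction s using Finset.induction_on with
  | empty =>
    simpa using cartAlg_one O
  | insert a s ha ih =>
    have h1 : IsEffCartier O (e a) := h a (Finset.mem_insert_self a s)
    have h2 : IsEffCartier O (fun x => ∏ i ∈ s, e i x) :=
      ih (fun i hi => h i (Finset.mem_insert_of_mem hi))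
    have := h1.mul h2
    have heq : (fun x => ∏ i ∈ insert a s, e i x) = fun x => e a x * ∏ i ∈ s, e i x := by
      funext x
      rw [Finset.prod_insert ha]
    rw [heq]
    exact this

/-- Pullback of a divisor along an automorphism `(ι, σ)` of the system of local rings. -/
theorem IsEffCartier.pullback [TopologicalSpace P] {O : P → Subalgebra K F} {e : P → F}
    (h : IsEffCartier O e) (ι : P → P) (hι : Continuous ι) (σ : F ≃ₐ[K] F)
    (hσO : ∀ x y, y ∈ O (ι x) → σ y ∈ O x) :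
    IsEffCartier O (fun x => σ (e (ι x))) := by
  refine ⟨fun x => ?_, fun x => hσO x _ (h.mem (ι x)), fun x => ?_⟩
  · intro h0
    have : e (ι x) = 0 := by
      have := congrArg σ.symm h0
      simpa using this
    exact h.ne_zero (ι x) this
  · obtain ⟨V, hV, hx, hc⟩ := h.coh (ι x)
    refine ⟨ι ⁻¹' V, hV.preimage hι, hx, fun x' hx' => ?_⟩
    obtain ⟨a, b⟩ := hc (ι x') hx'
    constructor
    · show σ (e (ι x)) / σ (e (ι x')) ∈ O x'
      rw [← map_div₀]
      exact hσO x' _ a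
    · show σ (e (ι x')) / σ (e (ι x)) ∈ O x'
      rw [← map_div₀]
      exact hσO x' _ b

theorem Lspace_mono {O : P → Subalgebra K F} {e : P → F} (he : ∀ x, e x ∈ O x) {k l : ℕ}
    (hkl : k ≤ l) : Lspace O e k ≤ Lspace O e l := by
  intro f hf x
  obtain ⟨m, rfl⟩ := Nat.exists_eq_add_of_le hkl
  rw [pow_add, ← mul_assoc]
  exact (O x).mul_mem (hf x) ((O x).pow_mem (he x) m)

/-- `L(k D) ≤ L(k (D + D'))` for effective `D'`. -/
theorem Lspace_le_mul_right {O : P → Subalgebra K F} (e e' : P → F) (he' : ∀ x, e' x ∈ O x)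
    (k : ℕ) : Lspace O e k ≤ Lspace O (fun x => e x * e' x) k := by
  intro f hf x
  show f * (e x * e' x) ^ k ∈ O x
  rw [mul_pow, ← mul_assoc]
  exact (O x).mul_mem (hf x) ((O x).pow_mem (he' x) k)

theorem Lspace_le_mul_left {O : P → Subalgebra K F} (e e' : P → F) (he' : ∀ x, e' x ∈ O x)
    (k : ℕ) : Lspace O e k ≤ Lspace O (fun x => e' x * e x) k := by
  intro f hf x
  show f * (e' x * e x) ^ k ∈ O x
  rw [mul_comm (e' x) (e x), mul_pow, ← mul_assoc]
  exact (O x).mul_mem (hf x) ((O x).pow_mem (he' x) k)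

theorem mul_mem_Lspace {O : P → Subalgebra K F} {e : P → F} {k l : ℕ} {f g : F}
    (hf : f ∈ Lspace O e k) (hg : g ∈ Lspace O e l) : f * g ∈ Lspace O e (k + l) := by
  intro x
  have : f * g * e x ^ (k + l) = (f * e x ^ k) * (g * e x ^ l) := by
    rw [pow_add]; ring
  rw [this]
  exact (O x).mul_mem (hf x) (hg x)

theorem algebraMap_mem_Lspace {O : P → Subalgebra K F} {e : P → F} (he : ∀ x, e x ∈ O x)
    (c : K) (k : ℕ) : algebraMap K F c ∈ Lspace O e k := by
  intro x
  exact (O x).mul_mem ((O x).algebraMap_mem c) ((O x).pow_mem (he x) k)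

end Fermat.Agent.S26.D0UB
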