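/-
S26 P7 (D0UB), leaf L4: property (BA) from field generators.
-/
import Fermat.Agent.S26.D0UB.CartAlg

set_option autoImplicit false

namespace Fermat.Agent.S26.D0UB

variable {K F : Type*} [Field K] [Field F] [Algebra K F] {P : Type*}

/-- The union of the spaces `L(k D)` (`D` effective) as a `K`-subalgebra of `F`. -/
def baAlgebra (O : P → Subalgebra K F) (e : P → F) (he : ∀ x, e x ∈ O x) : Subalgebra K F where
  carrier := {f | ∃ k : ℕ, f ∈ Lspace O e k}
  mul_mem' := by
    rintro a b ⟨k, hk⟩ ⟨l, hl⟩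
    exact ⟨k + l, mul_mem_Lspace hk hl⟩
  add_mem' := by
    rintro a b ⟨k, hk⟩ ⟨l, hl⟩
    exact ⟨max k l, (Lspace O e (max k l)).add_mem (Lspace_mono he (le_max_left k l) hk)
      (Lspace_mono he (le_max_right k l) hl)⟩
  algebraMap_mem' := by
    intro c
    exact ⟨0, algebraMap_mem_Lspace he c 0⟩

/-- L4.  If `F = K(S)` and every element of `S` lies in `L(D)` (`D` effective), then every element
of `F` is a quotient of two elements of some `L(k D)`.
(The union of the `L(k D)` is a `K`-subalgebra containing `S`; use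
`IntermediateField.mem_adjoin_iff_div` or an induction over the adjoin.) -/
theorem hasBA_of_generators {O : P → Subalgebra K F} {e : P → F} (he : ∀ x, e x ∈ O x)
    (S : Set F) (hS : IntermediateField.adjoin K S = ⊤) (hmem : ∀ f ∈ S, f ∈ Lspace O e 1) :
    HasBA O e := by
  intro u
  have hu : u ∈ IntermediateField.adjoin K S := by rw [hS]; trivial
  obtain ⟨r, hr, s, hs, rfl⟩ := IntermediateField.mem_adjoin_iff_div.mp hu
  have hle : Algebra.adjoin K S ≤ baAlgebra O e he :=
    Algebra.adjoin_le (fun f hf => ⟨1, hmem f hf⟩)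
  obtain ⟨k, hk⟩ := hle hr
  obtain ⟨l, hl⟩ := hle hs
  by_cases hs0 : s = 0
  · -- `r / 0 = 0 = 0 / 1`
    refine ⟨0, 0, 1, (Lspace O e 0).zero_mem, ?_, one_ne_zero, ?_⟩
    · have := algebraMap_mem_Lspace he (1 : K) 0
      simpa using this
    · rw [hs0]; simp
  · exact ⟨max k l, r, s, Lspace_mono he (le_max_left k l) hk,
      Lspace_mono he (le_max_right k l) hl, hs0, rfl⟩

end Fermat.Agent.S26.D0UB
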