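/-
S26 P7 (D0UB), leaf L0: a UFD subalgebra with fraction field `F` has denominators.
-/
import Fermat.Agent.S26.D0UB.Basic

set_option autoImplicit false

namespace Fermat.Agent.S26.D0UB

variable {K F : Type*} [Field K] [Field F] [Algebra K F]

/-- L0.  If the subalgebra `O` of `F` is a UFD and every element of `F` is a quotient of
elements of `O`, then every `f : F` has a denominator in `O`
(`f = a / b` in lowest terms; `(O : f) = b O`). -/
theorem exists_isDenom_of_ufd (O : Subalgebra K F) [UniqueFactorizationMonoid O]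
    (hfrac : ∀ y : F, ∃ a ∈ O, ∃ s ∈ O, s ≠ 0 ∧ y = a / s) (f : F) :
    ∃ b : F, IsDenom O f b := by
  obtain ⟨a, ha, s, hs, hs0, rfl⟩ := hfrac f
  have hs0' : (⟨s, hs⟩ : O) ≠ 0 := by
    intro h
    exact hs0 (congrArg Subtype.val h)
  obtain ⟨s', a', c, hrel, hcs, hca⟩ :=
    UniqueFactorizationMonoid.exists_reduced_factors (⟨s, hs⟩ : O) hs0' ⟨a, ha⟩
  have hcs' : (c : F) * (s' : F) = s := by
    have := congrArg Subtype.val hcs
    simpa using this
  have hca' : (c : F) * (a' : F) = a := by
    have := congrArg Subtype.val hca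
    simpa using this
  have hc0 : (c : F) ≠ 0 := by
    intro h
    rw [h, zero_mul] at hcs'
    exact hs0 hcs'.symm
  have hs'0 : (s' : F) ≠ 0 := by
    intro h
    rw [h, mul_zero] at hcs'
    exact hs0 hcs'.symm
  have hf : a / s = (a' : F) / (s' : F) := by
    rw [← hcs', ← hca']
    field_simp
  refine ⟨(s' : F), hs'0, s'.2, ?_⟩
  intro y hy
  rw [hf]
  constructor
  · intro hw
    have hdvd : s' ∣ (⟨y, hy⟩ : O) * a' := by
      refine ⟨⟨_, hw⟩, ?_⟩
      apply Subtype.ext
      simp only [MulMemClass.coe_mul]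
      field_simp
    obtain ⟨z, hz⟩ := hrel.dvd_of_dvd_mul_right hdvd
    refine ⟨(z : F), z.2, ?_⟩
    have := congrArg Subtype.val hz
    simpa using this
  · rintro ⟨z, hz, rfl⟩
    have : (s' : F) * z * ((a' : F) / (s' : F)) = z * (a' : F) := by
      field_simp
    rw [this]
    exact O.mul_mem hz a'.2

end Fermat.Agent.S26.D0UB
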