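/-
S26 P7 (D0UB), leaf L1: denominators are unique up to units and spread to a neighbourhood.
-/
import Fermat.Agent.S26.D0UB.Basic

set_option autoImplicit false

namespace Fermat.Agent.S26.D0UB

variable {K F : Type*} [Field K] [Field F] [Algebra K F] {P : Type*}

theorem spread_self_mul_mem {O : Subalgebra K F} {f b : F} (h : IsDenom O f b) :
    b * f ∈ O :=
  (h.2.2 b h.2.1).2 ⟨1, O.one_mem, (mul_one b).symm⟩

/-- L1a.  Two denominators of `f` in `O` differ by a unit of `O`. -/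
theorem IsDenom.div_mem {O : Subalgebra K F} {f b b' : F}
    (h : IsDenom O f b) (h' : IsDenom O f b') : b / b' ∈ O := by
  obtain ⟨z, hz, hbz⟩ := (h'.2.2 b h.2.1).1 (spread_self_mul_mem h)
  have : b / b' = z := by
    rw [hbz, mul_div_cancel_left₀ _ h'.1]
  rw [this]
  exact hz

/-- The denominator ideal of `f` in a subalgebra `R`. -/
def spreadIdeal (R : Subalgebra K F) (f : F) : Ideal R where
  carrier := {r | (r : F) * f ∈ R}
  add_mem' := by
    intro a b ha hb
    show ((a + b : R) : F) * f ∈ R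
    rw [Subalgebra.coe_add, add_mul]
    exact R.add_mem ha hb
  zero_mem' := by
    show ((0 : R) : F) * f ∈ R
    rw [Subalgebra.coe_zero, zero_mul]
    exact R.zero_mem
  smul_mem' := by
    intro c a ha
    show ((c • a : R) : F) * f ∈ R
    rw [smul_eq_mul, Subalgebra.coe_mul, mul_assoc]
    exact R.mul_mem c.2 ha

theorem mem_spreadIdeal (R : Subalgebra K F) (f : F) (r : R) :
    r ∈ spreadIdeal R f ↔ (r : F) * f ∈ R := Iff.rfl

/-- Localisation of the colon ideal. -/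
theorem spread_colon {R O : Subalgebra K F} (_hRO : R ≤ O)
    (hloc : ∀ y ∈ O, ∃ a ∈ R, ∃ s ∈ R, s ≠ 0 ∧ s⁻¹ ∈ O ∧ y = a * s⁻¹) (f : F)
    (y : F) (hy : y ∈ O) (hyf : y * f ∈ O) :
    ∃ r : R, r ∈ spreadIdeal R f ∧ ∃ t : F, t⁻¹ ∈ O ∧ y = (r : F) * t⁻¹ := by
  obtain ⟨a, ha, s, hs, hs0, hsO, rfl⟩ := hloc y hy
  obtain ⟨c, hc, t, ht, ht0, htO, hct⟩ := hloc _ hyf
  refine ⟨⟨a * t, R.mul_mem ha ht⟩, ?_, s * t, ?_, ?_⟩
  · show a * t * f ∈ R
    have : a * t * f = c * s := by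
      have h1 : a * s⁻¹ * f * (s * t) = c * t⁻¹ * (s * t) := by rw [hct]
      have h2 : a * s⁻¹ * f * (s * t) = a * t * f := by
        field_simp
      have h3 : c * t⁻¹ * (s * t) = c * s := by
        field_simp
      rw [← h2, h1, h3]
    rw [this]
    exact R.mul_mem hc hs
  · rw [mul_inv]
    exact O.mul_mem hsO htO
  · show a * s⁻¹ = a * t * (s * t)⁻¹
    field_simp

/-- L1b.  A denominator of `f` at `x` is a denominator of `f` at all points of a neighbourhood
of `x`.  (Proof: chart `(V, R)` at `x`; the ideal `I = {r ∈ R | r * f ∈ R}` of the noetherian ring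
`R` is finitely generated, `(O x' : f) = I · O x'` for all `x' ∈ V`; `b` and the generators of `I`
are multiples of each other in `O x`, with finitely many denominators from `R`; shrink `V` to the
locus where these denominators are invertible.) -/
theorem IsDenom.spread [TopologicalSpace P] {O : P → Subalgebra K F} (hch : HasCharts O)
    (x : P) (f b : F) (h : IsDenom (O x) f b) :
    ∃ V : Set P, IsOpen V ∧ x ∈ V ∧ ∀ x' ∈ V, IsDenom (O x') f b := by
  classical
  obtain ⟨V, R, hVo, hxV, hNoeth, hloc, hopen⟩ := hch x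
  have := hNoeth
  obtain ⟨G, hG⟩ : (spreadIdeal R f).FG := IsNoetherian.noetherian _
  -- `b = r0 / t0` with `r0` in the colon ideal
  obtain ⟨r0, hr0, t0, ht0O, hbr0⟩ :=
    spread_colon (hloc x hxV).1 (hloc x hxV).2 f b h.2.1 (spread_self_mul_mem h)
  -- `t0` itself is `a1 / s1` with `a1, s1 ∈ R`, `s1` invertible at `x`; we only need
  -- a neighbourhood where `t0⁻¹` stays in the local ring
  obtain ⟨a1, ha1, s1, hs1, hs10, hs1O, ht0eq⟩ := (hloc x hxV).2 _ ht0O
  -- each generator is a multiple of `b` at `x`, hence near `x`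
  have hgen : ∀ g : R, g ∈ G → ∃ U : Set P, IsOpen U ∧ x ∈ U ∧
      ∀ x' ∈ U, x' ∈ V ∧ ∃ z ∈ O x', (g : F) = b * z := by
    intro g hg
    have hgI : g ∈ spreadIdeal R f := by
      rw [← hG]; exact Ideal.subset_span hg
    have hgO : (g : F) ∈ O x := (hloc x hxV).1 g.2
    have hgf : (g : F) * f ∈ O x := (hloc x hxV).1 hgI
    obtain ⟨w, hw, hgw⟩ := (h.2.2 _ hgO).1 hgf
    obtain ⟨a, ha, s, hs, hs0, hsO, rfl⟩ := (hloc x hxV).2 w hw
    refine ⟨{x' | x' ∈ V ∧ s⁻¹ ∈ O x'}, hopen s hs, ⟨hxV, hsO⟩, fun x' hx' => ⟨hx'.1, ?_⟩⟩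
    exact ⟨a * s⁻¹, (O x').mul_mem ((hloc x' hx'.1).1 ha) hx'.2, hgw⟩
  choose U hUo hxU hU using hgen
  refine ⟨{x' | x' ∈ V ∧ s1⁻¹ ∈ O x'} ∩ ⋂ g ∈ G.attach, U g.1 g.2, ?_, ?_, ?_⟩
  · exact (hopen s1 hs1).inter (isOpen_biInter_finset (fun g _ => hUo g.1 g.2))
  · refine ⟨⟨hxV, hs1O⟩, ?_⟩
    simp only [Set.mem_iInter]
    exact fun g _ => hxU g.1 g.2
  · rintro x' ⟨⟨hx'V, hs1x'⟩, hx'U⟩
    simp only [Set.mem_iInter] at hx'U
    have hRO : R ≤ O x' := (hloc x' hx'V).1
    have ht0x' : t0⁻¹ ∈ O x' := by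
      rw [ht0eq]
      exact (O x').mul_mem (hRO ha1) hs1x'
    have hbO : b ∈ O x' := by
      rw [hbr0]
      exact (O x').mul_mem (hRO r0.2) ht0x'
    have hbf : b * f ∈ O x' := by
      have : b * f = (r0 : F) * f * t0⁻¹ := by rw [hbr0]; ring
      rw [this]
      exact (O x').mul_mem (hRO hr0) ht0x'
    refine ⟨h.1, hbO, fun y hy => ⟨fun hyf => ?_, ?_⟩⟩
    · obtain ⟨r, hr, t, htO, hyr⟩ := spread_colon hRO (hloc x' hx'V).2 f y hy hyf
      have key : ∀ r : R, r ∈ Ideal.span (G : Set R) → ∃ z ∈ O x', (r : F) = b * z := by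
        intro r hr
        induction hr using Submodule.span_induction with
        | mem g hg => exact (hU g hg x' (hx'U ⟨g, hg⟩ (Finset.mem_attach _ _))).2
        | zero => exact ⟨0, (O x').zero_mem, by simp⟩
        | add r1 r2 _ _ h1 h2 =>
          obtain ⟨z1, hz1, e1⟩ := h1
          obtain ⟨z2, hz2, e2⟩ := h2
          exact ⟨z1 + z2, (O x').add_mem hz1 hz2, by
            rw [Subalgebra.coe_add, e1, e2, mul_add]⟩
        | smul c r1 _ h1 =>
          obtain ⟨z1, hz1, e1⟩ := h1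
          exact ⟨c * z1, (O x').mul_mem (hRO c.2) hz1, by
            rw [smul_eq_mul, Subalgebra.coe_mul, e1]; ring⟩
      obtain ⟨z, hz, hrz⟩ := key r (by rw [hG]; exact hr)
      exact ⟨z * t⁻¹, (O x').mul_mem hz htO, by rw [hyr, hrz]; ring⟩
    · rintro ⟨z, hz, rfl⟩
      have : b * z * f = z * (b * f) := by ring
      rw [this]
      exact (O x').mul_mem hz hbf

end Fermat.Agent.S26.D0UB
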