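/-
S26 P7 (D0UB), leaf L2: the polar divisor of a function.
-/
import Fermat.Agent.S26.D0UB.Spread

set_option autoImplicit false

namespace Fermat.Agent.S26.D0UB

variable {K F : Type*} [Field K] [Field F] [Algebra K F] {P : Type*}

/-- L2a.  The polar divisor `(f)_∞`: local equations `e x` = a denominator of `f` at `x`. -/
theorem exists_polar [TopologicalSpace P] {O : P → Subalgebra K F} (hden : HasDenoms O)
    (hch : HasCharts O) (f : F) :
    ∃ e : P → F, IsEffCartier O e ∧ ∀ x, IsDenom (O x) f (e x) := by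
  choose e he using fun x => hden x f
  refine ⟨e, ⟨fun x => (he x).1, fun x => (he x).2.1, fun x => ?_⟩, he⟩
  obtain ⟨V, hV, hx, hsp⟩ := IsDenom.spread hch x f (e x) (he x)
  exact ⟨V, hV, hx, fun x' hx' =>
    ⟨(hsp x' hx').div_mem (he x'), (he x').div_mem (hsp x' hx')⟩⟩

/-- L2b.  `f ∈ L((f)_∞)`. -/
theorem mem_Lspace_one_of_isDenom {O : P → Subalgebra K F} {e : P → F} {f : F}
    (h : ∀ x, IsDenom (O x) f (e x)) : f ∈ Lspace O e 1 := by
  intro x
  rw [pow_one, mul_comm]
  exact (((h x).2.2 (e x) (h x).2.1).2 ⟨1, (O x).one_mem, (mul_one (e x)).symm⟩)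

end Fermat.Agent.S26.D0UB
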