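/-
S26 P7 (D0UB), leaf L5: the valuative bound (geometric input of UBALG).
-/
import Fermat.Agent.S26.D0UB.Basic

set_option autoImplicit false

namespace Fermat.Agent.S26.D0UB

variable {K F : Type*} [Field K] [Field F] [Algebra K F] {P : Type*}

/-- L5.  Compactness gives finitely many coherence neighbourhoods `V_j` of points `x_j`;
`h j := e (x_j)`.  A valuation ring `Ov ⊇ K` contains `O x` for some `x` (centre), `x ∈ V_j`,
`h j / e x` is a unit of `O x`, so `h j ∈ O x ≤ Ov` and
`f * h j ^ k = (f * e x ^ k) * (h j / e x) ^ k ∈ O x ≤ Ov` for `f ∈ L(k D)`. -/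
theorem hasValBound [TopologicalSpace P] [CompactSpace P] {O : P → Subalgebra K F}
    (hcen : HasCenters O) {e : P → F} (he : IsEffCartier O e) : HasValBound O e := by
  classical
  choose V hV hxV hc using he.coh
  obtain ⟨t, ht⟩ := isCompact_univ.elim_finite_subcover V hV
    (fun x _ => Set.mem_iUnion.2 ⟨x, hxV x⟩)
  refine ⟨t.card, fun j => e ((t.equivFin.symm j : t) : P), fun j => he.ne_zero _, ?_⟩
  intro Ov hOv
  obtain ⟨x, hx⟩ := hcen Ov hOv
  have hxU : x ∈ ⋃ i ∈ t, V i := ht (Set.mem_univ x)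
  simp only [Set.mem_iUnion] at hxU
  obtain ⟨i, hi, hxi⟩ := hxU
  refine ⟨t.equivFin ⟨i, hi⟩, ?_, ?_⟩
  · simp only [Equiv.symm_apply_apply]
    have h1 : e i / e x ∈ O x := (hc i x hxi).1
    have h2 : e i = (e i / e x) * e x := by
      rw [div_mul_cancel₀ _ (he.ne_zero x)]
    rw [h2]
    exact hx _ ((O x).mul_mem h1 (he.mem x))
  · intro k f hf
    simp only [Equiv.symm_apply_apply]
    have h1 : e i / e x ∈ O x := (hc i x hxi).1
    have h2 : f * e i ^ k = (f * e x ^ k) * (e i / e x) ^ k := by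
      rw [div_pow, mul_assoc, mul_div_cancel₀ _ (pow_ne_zero k (he.ne_zero x))]
    rw [h2]
    exact hx _ ((O x).mul_mem (hf x) ((O x).pow_mem h1 k))

end Fermat.Agent.S26.D0UB
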