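/-
S26 P7 (D0UB), leaf L6: the abstract export `exists_D0`.
-/
import Fermat.Agent.S26.D0UB.DenomUFD
import Fermat.Agent.S26.D0UB.Polar
import Fermat.Agent.S26.D0UB.BA
import Fermat.Agent.S26.D0UB.ValBound

set_option autoImplicit false

namespace Fermat.Agent.S26.D0UB

variable {K F : Type*} [Field K] [Field F] [Algebra K F] {P : Type*}

/-- L6 (abstract export of P7).  For a compact system of local rings with denominators (H1),
noetherian charts (H2), centres (H4), finitely generated function field (H5) and an involution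
`(ι, σ)` (H6), there is a symmetric effective Cartier divisor `D0` (local equations `e`) with
property (BA) and the valuative bound.
Construction: `e₁ x := ∏ f ∈ S, (polar equation of f at x)`, `e x := e₁ x * σ (e₁ (ι x))`. -/
theorem exists_D0 [TopologicalSpace P] [CompactSpace P] (O : P → Subalgebra K F)
    (hden : HasDenoms O) (hch : HasCharts O) (hcen : HasCenters O)
    (S : Finset F) (hS : IntermediateField.adjoin K (S : Set F) = ⊤)
    (ι : P → P) (hι : Continuous ι) (hιι : ∀ x, ι (ι x) = x)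
    (σ : F ≃ₐ[K] F) (hσσ : ∀ y, σ (σ y) = y) (hσO : ∀ x y, y ∈ O (ι x) → σ y ∈ O x) :
    ∃ e : P → F, IsEffCartier O e ∧ (∀ x, σ (e (ι x)) = e x) ∧ HasBA O e ∧ HasValBound O e := by
  classical
  choose p hp hpd using fun f : F => exists_polar hden hch f
  have h1 : IsEffCartier O (fun x => ∏ f ∈ S, p f x) := IsEffCartier.prod S p (fun f _ => hp f)
  have h2 : IsEffCartier O (fun x => σ (∏ f ∈ S, p f (ι x))) := h1.pullback ι hι σ hσO
  have h0 : IsEffCartier O (fun x => (∏ f ∈ S, p f x) * σ (∏ f ∈ S, p f (ι x))) := h1.mul h2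
  refine ⟨fun x => (∏ f ∈ S, p f x) * σ (∏ f ∈ S, p f (ι x)), h0, ?_, ?_, hasValBound hcen h0⟩
  · intro x
    show σ ((∏ f ∈ S, p f (ι x)) * σ (∏ f ∈ S, p f (ι (ι x)))) =
      (∏ f ∈ S, p f x) * σ (∏ f ∈ S, p f (ι x))
    rw [map_mul, hσσ, hιι, mul_comm]
  · apply hasBA_of_generators h0.mem (S : Set F) hS
    intro f hf
    have hf' : f ∈ S := hf
    have hf1 : f ∈ Lspace O (p f) 1 := mem_Lspace_one_of_isDenom (hpd f)
    have hf2 : f ∈ Lspace O (fun x => ∏ g ∈ S, p g x) 1 := by
      have heq : (fun x => ∏ g ∈ S, p g x) = fun x => p f x * ∏ g ∈ S.erase f, p g x := by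
        funext x
        exact (Finset.mul_prod_erase S (fun g => p g x) hf').symm
      rw [heq]
      exact Lspace_le_mul_right _ _
        (fun x => (IsEffCartier.prod (S.erase f) p (fun g _ => hp g)).mem x) 1 hf1
    exact Lspace_le_mul_right _ _ h2.mem 1 hf2

end Fermat.Agent.S26.D0UB
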