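/-
S26 P7 (D0UB): core of the package exports (helper1456).  NO frozen export is used and neither
`Top.lean`, `Geom.lean` nor `UBAlg.lean` is imported (only `AVDefs.lean`), so this file can sit
anywhere below the final versions of those files.

* `inv_natural`, `inv_inv'`, `negMap_over`, `negMap_negMap` : `[-1]` is an involution over `K`
  (Yoneda calculus of `RelativeGroupLaw`);
* `valBound` : the valuative bound for the spaces `L(D^k)` of ANY effective Cartier divisor on
  a universally closed integral `K`-scheme = the hypothesis `hval` of `ubalg` (P1);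
* `exists_D0_of` : P7 EXPORT 1 from "all stalks are UFDs" (with EQUALITY
  `Fam.pullback (negMap L) D₀ = D₀`).
-/
import Fermat.Agent.S26.AVDefs
import Fermat.Agent.S26.D0UB.Bridge.Concrete1456

set_option autoImplicit false

universe u

open CategoryTheory CategoryTheory.Limits AlgebraicGeometry NeronModelInfra GoodReductionJacobian

namespace Fermat.Agent.S26.D0UB.Export1456

open Fermat.Agent.S26

noncomputable section

section GroupLaw

variable {K : Type u} [Field K] {A : Scheme.{u}} {f : A ⟶ Spec (CommRingCat.of K)}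

/-- The inverse of the group law is natural in the test scheme. -/
theorem inv_natural (L : RelativeGroupLaw K f) {T T' : Scheme.{u}}
    (t : T ⟶ Spec (CommRingCat.of K)) (t' : T' ⟶ Spec (CommRingCat.of K)) (ψ : T' ⟶ T)
    (hψ : ψ ≫ t = t') (x : SchemeHomOver t f) :
    schemeHomOverComp ψ hψ (L.inv t x) = L.inv t' (schemeHomOverComp ψ hψ x) := by
  have h : L.mul t' (schemeHomOverComp ψ hψ (L.inv t x)) (schemeHomOverComp ψ hψ x) = L.one t' := by
    rw [← L.mul_natural t t' ψ hψ, L.inv_mul_cancel, L.one_natural t t' ψ hψ]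
  calc schemeHomOverComp ψ hψ (L.inv t x)
      = L.mul t' (schemeHomOverComp ψ hψ (L.inv t x)) (L.one t') := (L.mul_one t' _).symm
    _ = L.mul t' (schemeHomOverComp ψ hψ (L.inv t x))
          (L.mul t' (schemeHomOverComp ψ hψ x) (L.inv t' (schemeHomOverComp ψ hψ x))) := by
        rw [L.mul_inv_cancel]
    _ = L.mul t' (L.mul t' (schemeHomOverComp ψ hψ (L.inv t x)) (schemeHomOverComp ψ hψ x))
          (L.inv t' (schemeHomOverComp ψ hψ x)) := by rw [L.mul_assoc]
    _ = L.inv t' (schemeHomOverComp ψ hψ x) := by rw [h, L.one_mul]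

/-- `inv (inv x) = x`. -/
theorem inv_inv' (L : RelativeGroupLaw K f) {T : Scheme.{u}} (t : T ⟶ Spec (CommRingCat.of K))
    (x : SchemeHomOver t f) : L.inv t (L.inv t x) = x := by
  calc L.inv t (L.inv t x)
      = L.mul t (L.inv t (L.inv t x)) (L.one t) := (L.mul_one t _).symm
    _ = L.mul t (L.inv t (L.inv t x)) (L.mul t (L.inv t x) x) := by rw [L.inv_mul_cancel]
    _ = L.mul t (L.mul t (L.inv t (L.inv t x)) (L.inv t x)) x := by rw [L.mul_assoc]
    _ = x := by rw [L.inv_mul_cancel, L.one_mul]

/-- `[-1]` is a morphism over `Spec K`. -/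
theorem negMap_over (L : RelativeGroupLaw K f) : negMap L ≫ f = f :=
  (L.inv f RelativeGroupLaw.idPoint).2

/-- `[-1] ∘ [-1] = id`. -/
theorem negMap_negMap (L : RelativeGroupLaw K f) : negMap L ≫ negMap L = 𝟙 A := by
  have h1 : schemeHomOverComp (negMap L) (negMap_over L) (RelativeGroupLaw.idPoint (f := f)) =
      L.inv f RelativeGroupLaw.idPoint :=
    Subtype.ext (Category.comp_id _)
  have h2 := inv_natural L f f (negMap L) (negMap_over L) RelativeGroupLaw.idPoint
  rw [h1, inv_inv'] at h2
  exact congrArg Subtype.val h2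

end GroupLaw

section Bounds

variable {K : Type u} [Field K] {X : Scheme.{u}} [IsIntegral X]

/-- The valuative bound for the spaces `L(D^k)` of an effective Cartier divisor on a universally
closed integral `K`-scheme: the geometric input of `ubalg`. -/
theorem valBound (s : X ⟶ Spec (CommRingCat.of K)) [UniversallyClosed s] (D : Fam X)
    (hD : D.IsCartier) (heff : D.IsEffective) :
    ∃ (r : ℕ) (h : Fin r → FF s), (∀ j, h j ≠ 0) ∧
      ∀ O : ValuationSubring (FF s), (∀ c : K, algebraMap K (FF s) c ∈ O) →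
        ∃ j : Fin r, h j ∈ O ∧ ∀ (k : ℕ) (x : FF s), x ∈ LSpace s (D ^ k) → x * h j ^ k ∈ O := by
  let _ := Bridge.funAlgebra s
  have := Bridge.compactSpace s
  have he : IsEffCartier (Bridge.localRing s)
      (fun x => ((D x : (X.functionField)ˣ) : X.functionField)) := by
    refine ⟨fun x => (D x).ne_zero, fun x => heff x, fun x => ?_⟩
    obtain ⟨U, hxU, hU⟩ := hD x
    refine ⟨U, U.2, hxU, fun y hy => ?_⟩
    obtain ⟨h1, h2⟩ := hU y hy
    have hd : (((D y / D x : (X.functionField)ˣ)) : X.functionField) =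
        ((D y : (X.functionField)ˣ) : X.functionField) / ((D x : (X.functionField)ˣ) :
          X.functionField) := Units.val_div_eq_div_val _ _
    rw [hd] at h1 h2
    rw [inv_div] at h2
    exact ⟨h2, h1⟩
  obtain ⟨r, h, h0, hv⟩ := hasValBound (Bridge.hasCenters s) he
  refine ⟨r, h, h0, fun O hO => ?_⟩
  obtain ⟨j, hj, hjk⟩ := hv O (fun c => by
    show (Center7605.constHom s).hom c ∈ O
    rw [Concrete1456.center_constHom_eq]
    exact hO c)
  refine ⟨j, hj, fun k x hx => hjk k x (fun y => ?_)⟩
  have := hx y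
  rw [Pi.pow_apply, Units.val_pow_eq_pow_val] at this
  exact this

end Bounds

section D0

variable {K : Type u} [Field K] {A : Scheme.{u}} {f : A ⟶ Spec (CommRingCat.of K)}

/-- `exists_D0` from the factoriality of the local rings (no black box). -/
theorem exists_D0_of [IsIntegral A] (L : RelativeGroupLaw K f) [IsProper f]
    (hufd : ∀ x : A, UniqueFactorizationMonoid (A.presheaf.stalk x)) :
    ∃ D₀ : Fam A, D₀.IsCartier ∧ D₀.IsEffective ∧
      Fam.pullback (negMap L) D₀ = D₀ ∧
      ∀ u : FF f, ∃ (k : ℕ) (s₁ s₂ : FF f),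
        s₁ ∈ LSpace f (D₀ ^ k) ∧ s₂ ∈ LSpace f (D₀ ^ k) ∧ s₂ ≠ 0 ∧ u * s₂ = s₁ := by
  obtain ⟨D0, hC, hE, hsym, hBA, -⟩ := Concrete1456.exists_D0_fam_of_isProper f hufd (negMap L)
    (negMap_over L) (negMap_negMap L)
  refine ⟨D0, hC, hE, hsym, fun u => ?_⟩
  obtain ⟨k, s1, s2, h1, h2, h3, h4⟩ := hBA u
  exact ⟨k, s1, s2, h1, h2, h3, by rw [h4, div_mul_cancel₀ _ h3]⟩

end D0

end

end Fermat.Agent.S26.D0UB.Export1456
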